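import Fermat.Agent.S41.IHB.Eis
import Fermat.Agent.S41.Contracts
import Fermat.Agent.S41.CSP.Hom
import Fermat.Agent.S41.Input.NonEis

/-!
# S41 / IHB : Ihara's lemma (`IharaC`) by the Betti route

`α^* x + β^* y = 0` gives `χ_x(γ) χ_y(g γ g⁻¹) = 1` on `Γ₀(N q)` (`g = diag(q,1)`), and the same with `x`, `y` exchanged
(apply `w_q`).  Hence `χ_x` is invariant under conjugation by `g²`; CSP-lite shows that `χ_x` kills `Γ₁(N)`; then
`T_ℓ x = (ℓ + 1) x` for all `ℓ ∤ N`, which is impossible for `x ≠ 0` in the eigenspace of an irreducible `E[p]`.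
-/

set_option autoImplicit false
set_option linter.unusedSectionVars false

noncomputable section

namespace Fermat.Agent.S41.IHB

open AlgebraicCurve ModularCurve Fermat.Agent.S24 Fermat.Agent.GAL Fermat.Agent.GAL.Hecke
  Fermat.Agent.GAL.Tors
open CongruenceSubgroup Matrix.SpecialLinearGroup
open WeierstrassCurve WeierstrassCurve.Affine WeierstrassCurve.Affine.Point
open scoped MatrixGroups

variable {N q : ℕ} [NeZero N] [NeZero q] {m : ℕ} [NeZero m]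

/-- the matrix identity `g γ = γ' g`, `g = diag(q,1)`. -/
theorem diag_mul_eq {γ γ' : SL(2, ℤ)} (h00 : γ' 0 0 = γ 0 0) (h11 : γ' 1 1 = γ 1 1)
    (h01 : γ' 0 1 = (q : ℤ) * γ 0 1) (h10 : γ 1 0 = (q : ℤ) * γ' 1 0) :
    ModularForm.heckeDiagMatrix q * mapGL ℝ γ = mapGL ℝ γ' * ModularForm.heckeDiagMatrix q := by
  apply Units.ext
  rw [Units.val_mul, Units.val_mul, ModularForm.val_heckeDiagMatrix (NeZero.ne q)]
  have e : ∀ (g : SL(2, ℤ)) (i j : Fin 2),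
      ((mapGL ℝ g : GL (Fin 2) ℝ) : Matrix (Fin 2) (Fin 2) ℝ) i j = ((g i j : ℤ) : ℝ) := by
    intro g i j
    simp
  ext i j
  fin_cases i <;> fin_cases j <;>
    simp only [Matrix.mul_apply, Fin.sum_univ_two, e, Fin.zero_eta, Fin.mk_one, Fin.isValue,
      Matrix.of_apply, Matrix.cons_val', Matrix.cons_val_zero, Matrix.cons_val_one,
      Matrix.cons_val_fin_one, h00, h11, h01, h10] <;> push_cast <;> ring

/-- the relation between the characters of `x` and `y`. -/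
theorem ch_rel (x y : KV Kbar (FN N) m)
    (h : DR.Hecke.aPull N q m x + DR.Hecke.bPull N q m y = 0) (γ γ' : Gamma0 N)
    (hγ : ((N * q : ℕ) : ℤ) ∣ (γ : SL(2, ℤ)) 1 0)
    (h00 : (γ' : SL(2, ℤ)) 0 0 = (γ : SL(2, ℤ)) 0 0) (h11 : (γ' : SL(2, ℤ)) 1 1 = (γ : SL(2, ℤ)) 1 1)
    (h01 : (γ' : SL(2, ℤ)) 0 1 = (q : ℤ) * (γ : SL(2, ℤ)) 0 1)
    (h10 : (γ : SL(2, ℤ)) 1 0 = (q : ℤ) * (γ' : SL(2, ℤ)) 1 0) :
    ch N m x γ * ch N m y γ' = 1 := by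
  have hmem : (γ : SL(2, ℤ)) ∈ Gamma0 (N * q) := by
    rw [Gamma0_mem, ZMod.intCast_zmod_eq_zero_iff_dvd]
    exact hγ
  have h1 := congrArg (fun z => ch (N * q) m z ⟨γ, hmem⟩) h
  simp only [ch_add, ch_zero, MonoidHom.mul_apply, MonoidHom.one_apply] at h1
  rwa [ch_aPull N q x ⟨γ, hmem⟩ γ rfl, ch_bPull N q y ⟨γ, hmem⟩ γ' (diag_mul_eq h00 h11 h01 h10)]
    at h1

/-- **(R)**: the character of `x` is invariant under conjugation by `diag(q²,1)`. -/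
theorem ch_R (hq : q.Prime) (hqN : ¬ q ∣ N) (x y : KV Kbar (FN N) m)
    (h : DR.Hecke.aPull N q m x + DR.Hecke.bPull N q m y = 0) (γ δ : Gamma0 N)
    (h00 : (δ : SL(2, ℤ)) 0 0 = (γ : SL(2, ℤ)) 0 0) (h11 : (δ : SL(2, ℤ)) 1 1 = (γ : SL(2, ℤ)) 1 1)
    (h01 : (δ : SL(2, ℤ)) 0 1 = (q : ℤ) ^ 2 * (γ : SL(2, ℤ)) 0 1)
    (h10 : (γ : SL(2, ℤ)) 1 0 = (q : ℤ) ^ 2 * (δ : SL(2, ℤ)) 1 0) :
    ch N m x γ = ch N m x δ := by
  have h' : DR.Hecke.aPull N q m y + DR.Hecke.bPull N q m x = 0 := by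
    have := congrArg (DR.Hecke.wKV N q hq hqN m) h
    rw [map_add, DR.Hecke.wKV_aPull, DR.Hecke.wKV_bPull, _root_.map_zero, add_comm] at this
    exact this
  have hδ : (N : ℤ) ∣ (δ : SL(2, ℤ)) 1 0 := by
    have := Gamma0_mem.mp δ.2
    rwa [ZMod.intCast_zmod_eq_zero_iff_dvd] at this
  obtain ⟨c, hc⟩ := hδ
  have hdet : (γ : SL(2, ℤ)) 0 0 * (γ : SL(2, ℤ)) 1 1 - (γ : SL(2, ℤ)) 0 1 * (γ : SL(2, ℤ)) 1 0 = 1 :=
    CSP.det2 _
  let μ₀ : SL(2, ℤ) := CSP.mk2 ((γ : SL(2, ℤ)) 0 0) ((q : ℤ) * (γ : SL(2, ℤ)) 0 1)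
    ((q : ℤ) * (δ : SL(2, ℤ)) 1 0) ((γ : SL(2, ℤ)) 1 1) (by rw [h10] at hdet; linarith)
  have hμ : μ₀ ∈ Gamma0 N := by
    rw [CSP.mem_Gamma0_iff]
    show (N : ℤ) ∣ (q : ℤ) * (δ : SL(2, ℤ)) 1 0
    exact ⟨q * c, by rw [hc]; ring⟩
  have r1 := ch_rel x y h γ ⟨μ₀, hμ⟩ ⟨q * c, by rw [h10, hc]; push_cast; ring⟩ rfl rfl rfl
    (by show _ = (q : ℤ) * ((q : ℤ) * (δ : SL(2, ℤ)) 1 0); rw [h10]; ring)
  have r2 := ch_rel y x h' ⟨μ₀, hμ⟩ δ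
    ⟨c, by show (q : ℤ) * (δ : SL(2, ℤ)) 1 0 = _; rw [hc]; push_cast; ring⟩ h00 h11
    (by show _ = (q : ℤ) * ((q : ℤ) * (γ : SL(2, ℤ)) 0 1); rw [h01]; ring) rfl
  rw [mul_comm] at r2
  exact mul_right_cancel (r1.trans r2.symm)

/-- the character of `x` kills `Γ₁(N)`. -/
theorem ch_trivial {p : ℕ} [NeZero p] (hp : p.Prime) (hp2 : p ≠ 2) (hq : q.Prime) (hqN : ¬ q ∣ N)
    (x y : KV Kbar (FN N) p) (h : DR.Hecke.aPull N q p x + DR.Hecke.bPull N q p y = 0) :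
    ∀ γ : Gamma0 N, (γ : SL(2, ℤ)) ∈ Gamma1 N → ch N p x γ = 1 := by
  refine CSP.csp_lite_hom (Nat.pos_of_ne_zero (NeZero.ne N)) hq
    ((Nat.Prime.coprime_iff_not_dvd hq).mpr hqN) hp hp2 ?_ (ch N p x) ?_ ?_ (ch_R hq hqN x y h)
  · intro a
    exact Subtype.ext ((mem_rootsOfUnity _ _).mp a.2)
  · intro γ hγ
    apply ch_neTrivial
    rw [hγ, Matrix.trace_fin_two]
    show ((1 : ℤ) + 1) ^ 2 ≤ 4
    norm_num
  · intro γ hγ
    apply ch_neTrivial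
    rw [hγ, Matrix.trace_fin_two]
    show ((1 : ℤ) + 1) ^ 2 ≤ 4
    norm_num

/-- a nonzero class of `V(N)` killed by an integer `n`: `p ∣ n`. -/
theorem dvd_of_zsmul_eq_zero {p : ℕ} (hp : p.Prime) {x : KV Kbar (FN N) p} (hx : x ≠ 0) {n : ℤ}
    (h : n • x = 0) : (p : ℤ) ∣ n := by
  by_contra hn
  have hcop : IsCoprime (p : ℤ) n :=
    (Prime.coprime_iff_not_dvd (Nat.prime_iff_prime_int.mp hp)).mpr hn
  obtain ⟨a, b, hab⟩ := hcop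
  apply hx
  have h1 : (a * (p : ℤ) + b * n) • x = 0 := by
    rw [add_zsmul, mul_zsmul, mul_zsmul, h, smul_zero, add_zero, natCast_zsmul, KV.nsmul_eq_zero,
      smul_zero]
  rwa [hab, one_zsmul] at h1

/-- one half of Ihara's lemma. -/
theorem eq_zero_of_rel (E : WeierstrassCurve ℚ) [E.IsElliptic] (W : WeierstrassCurve ℤ)
    (hW : W.IsIntegralModelOf E) {p : ℕ} (hp : p.Prime) (hp2 : p ≠ 2) (hq : q.Prime) (hqN : ¬ q ∣ N)
    (hirr : GaloisRepIsIrreducible (K := AlgebraicClosure ℚ) ℚ E p)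
    (x y : KV Kbar (FN N) p) (hx : x ∈ Eig W N (N * q) p)
    (h : DR.Hecke.aPull N q p x + DR.Hecke.bPull N q p y = 0) : x = 0 := by
  have : NeZero p := ⟨hp.ne_zero⟩
  by_contra hx0
  have htriv := ch_trivial hp hp2 hq hqN x y h
  obtain ⟨ℓ, hℓ, hℓB, hne⟩ := Input.exists_prime_ne E (E.isUnit_Δ.ne_zero) hp hp2 hirr W hW
    (W.Δ.natAbs.primeFactors ∪ (N * q).primeFactors ∪ {p})
  have : NeZero ℓ := ⟨hℓ.ne_zero⟩
  simp only [Finset.mem_union, Finset.mem_singleton, not_or] at hℓB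
  obtain ⟨⟨hb1, hb2⟩, hb3⟩ := hℓB
  have hΔ : W.Δ ≠ 0 := by
    obtain ⟨C, hC⟩ := hW
    intro h0
    have h1 : (W.map (Int.castRingHom ℚ)).Δ = 0 := by rw [WeierstrassCurve.map_Δ, h0, _root_.map_zero]
    rw [← hC, WeierstrassCurve.variableChange_Δ] at h1
    have h2 : E.Δ ≠ 0 := E.isUnit_Δ.ne_zero
    have h3 : ((C.u⁻¹ : ℚˣ) : ℚ) ^ 12 ≠ 0 := pow_ne_zero _ (Units.ne_zero _)
    exact (mul_ne_zero h3 h2) h1
  have hgood : W.IsGoodPrimeFor ℓ := by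
    intro hd
    apply hb1
    rw [Nat.mem_primeFactors]
    exact ⟨hℓ, Int.natCast_dvd.mp hd, by simpa using hΔ⟩
  have hℓNq : ¬ ℓ ∣ N * q := by
    intro hd
    apply hb2
    rw [Nat.mem_primeFactors]
    exact ⟨hℓ, hd, mul_ne_zero (NeZero.ne N) (NeZero.ne q)⟩
  have hℓN : ¬ ℓ ∣ N := fun hd => hℓNq (hd.mul_right q)
  have e1 := hx ℓ ⟨hℓ, hgood, hℓNq, hb3⟩
  rw [heckeTtot_eq, heckeT_eq_of_trivial N hℓ hℓN x htriv] at e1
  apply hne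
  apply dvd_of_zsmul_eq_zero hp hx0
  rw [sub_zsmul, sub_zsmul, ← e1, one_zsmul, natCast_zsmul, add_nsmul, one_nsmul]
  abel

/-- **Ihara's lemma** (contract `IharaC` of `S41/Contracts.lean`). -/
theorem iharaC : IharaC := by
  intro E _ W hW p N q' _ _ hp hp2 hq' hq'N _ hirr x hx y hy h
  refine ⟨eq_zero_of_rel E W hW hp hp2 hq' hq'N hirr x y hx h, ?_⟩
  have h' : DR.Hecke.aPull N q' p y + DR.Hecke.bPull N q' p x = 0 := by
    have := congrArg (DR.Hecke.wKV N q' hq' hq'N p) h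
    rw [map_add, DR.Hecke.wKV_aPull, DR.Hecke.wKV_bPull, _root_.map_zero, add_comm] at this
    exact this
  exact eq_zero_of_rel E W hW hp hp2 hq' hq'N hirr y x hy h'

end Fermat.Agent.S41.IHB
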