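import Fermat.Agent.S41.Defs
import Fermat.Agent.GAL.Tors.HeckeInput

/-!
# S41 / IHB (Betti route to Ihara's lemma) : the character of a class of `V(M) = KV Kbar (FN M) m`

`chK M m x : Γ₀(M) → μ_m(ℂ)` is the transformation character of an `m`-th root (in `Mer`) of a Kummer unit representing
`x`.  It is additive and injective in `x`, kills the non hyperbolic elements, and

* `chK_aPull` : the character of `α^* x` is the restriction of the character of `x`;
* `chK_bPull` : the character of `β^* y` is the character of `y` composed with conjugation by `diag(q,1)`;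
* `chK_heckeT_of` : the character of `T_ℓ x`.
-/

set_option autoImplicit false
set_option linter.unusedSectionVars false

noncomputable section

namespace Fermat.Agent.S41.IHB

open AlgebraicCurve ModularCurve Fermat.Agent.S24 Fermat.Agent.GAL Fermat.Agent.GAL.Hecke
  Fermat.Agent.GAL.Tors
open CongruenceSubgroup Matrix.SpecialLinearGroup
open scoped MatrixGroups

variable (M : ℕ) [NeZero M] (m : ℕ) [NeZero m]

theorem finite_KVC : Finite (KV ℂ (FF ℂ M) m) := by
  obtain ⟨c, -, -⟩ := exists_charOf M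
  obtain ⟨κ, -⟩ := exists_kappa M m
  exact Finite.of_equiv _ ((c m).trans κ.symm).toEquiv

/-- the character of a class. -/
def chK : KV Kbar (FN M) m →+ Additive (neChars M m) :=
  ((exists_kappa M m).choose : KV ℂ (FF ℂ M) m →+ Additive (neChars M m)).comp (bcKV M m)

/-- the character of a class, as a homomorphism. -/
def ch (x : KV Kbar (FN M) m) : Gamma0 M →* rootsOfUnity m ℂ :=
  (Additive.toMul (chK M m x) : neChars M m).1

theorem chK_injective : Function.Injective (chK M m) := by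
  intro a b h
  exact (bijective_bcKV M m (finite_KVC M m)).1 ((exists_kappa M m).choose.injective h)

theorem ch_injective : Function.Injective (ch M m) := by
  intro a b h
  exact chK_injective M m (Additive.toMul.injective (Subtype.ext h))

theorem ch_neTrivial (x : KV Kbar (FN M) m) : NeTrivial (ch M m x) :=
  (Additive.toMul (chK M m x) : neChars M m).2

theorem ch_add (x y : KV Kbar (FN M) m) : ch M m (x + y) = ch M m x * ch M m y := by
  unfold ch
  rw [map_add]
  rfl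

theorem ch_zero : ch M m 0 = 1 := by
  unfold ch
  rw [map_zero]
  rfl

theorem ch_nsmul (n : ℕ) (x : KV Kbar (FN M) m) : ch M m (n • x) = ch M m x ^ n := by
  induction n with
  | zero => rw [zero_smul, pow_zero, ch_zero]
  | succ n ih => rw [succ_nsmul, ch_add, ih, pow_succ]

theorem ch_spec (u : kummerUnits Kbar (FN M) m) :
    HasChar M m (bcUnits M (u : (FN M)ˣ)) (ch M m (KV.mk u)) :=
  (exists_kappa M m).choose_spec ⟨bcUnits M (u : (FN M)ˣ), bc_mem_kummerUnits M m u u.2⟩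

variable {M m}

theorem ch_eq_of_hasChar {u : kummerUnits Kbar (FN M) m} {χ : Gamma0 M →* rootsOfUnity m ℂ}
    (h : HasChar M m (bcUnits M (u : (FN M)ˣ)) χ) : ch M m (KV.mk u) = χ :=
  hasChar_unique (ch_spec M m u) h

/-- The value of the character can be read off on any root. -/
theorem hasChar_apply_eq {u : (FF ℂ M)ˣ} {χ : Gamma0 M →* rootsOfUnity m ℂ} (h : HasChar M m u χ)
    (h' : Mer) (e' : h' ^ m = PsiMer M (u : FF ℂ M)) (γ : Gamma0 M) (c : ℂ)
    (hc : compSL (γ : SL(2, ℤ)) h' = algebraMap ℂ Mer c * h') :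
    (((χ γ : rootsOfUnity m ℂ) : ℂˣ) : ℂ) = c := by
  obtain ⟨h₁, e₁, t₁⟩ := h
  have hm : m ≠ 0 := NeZero.ne m
  have hu := PsiMer_unit_ne_zero u
  have h₁0 : h₁ ≠ 0 := by
    rintro rfl
    rw [zero_pow hm] at e₁
    exact hu e₁.symm
  have h'0 : h' ≠ 0 := by
    rintro rfl
    rw [zero_pow hm] at e'
    exact hu e'.symm
  obtain ⟨z, hz⟩ := mem_range_algebraMap_of_pow_eq_one (c := h' / h₁) hm
    (by rw [div_pow, e₁, e', div_self hu])
  have hz' : h' = algebraMap ℂ Mer z * h₁ := by rw [hz, div_mul_cancel₀ _ h₁0]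
  have e4 : compSL (γ : SL(2, ℤ)) h'
      = algebraMap ℂ Mer (((χ γ : rootsOfUnity m ℂ) : ℂˣ) : ℂ) * h' := by
    conv_lhs => rw [hz']
    rw [map_mul, t₁ γ, hz']
    have : compSL (γ : SL(2, ℤ)) (algebraMap ℂ Mer z) = algebraMap ℂ Mer z :=
      compGL_algebraMap _ _ z
    rw [this]
    ring
  rw [e4] at hc
  exact (algebraMap ℂ Mer).injective (mul_right_cancel₀ h'0 hc)

/-! ### The degeneracy maps -/

variable (N q : ℕ) [NeZero N] [NeZero q]

theorem PsiMer_aUnits (u : (FN N)ˣ) :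
    PsiMer (N * q) ((bcUnits (N * q) (DR.Hecke.aUnits N q u) : (FF ℂ (N * q))ˣ) : FF ℂ (N * q)) =
      PsiMer N ((bcUnits N u : (FF ℂ N)ˣ) : FF ℂ N) := by
  rw [PsiMer_eq, PsiMer_eq]
  refine congrArg PsiQ (Subtype.ext ?_)
  show coeffMap iota ((heckeAlphaBar Kbar N q (u : FN N) : FN (N * q)) : LaurentSeries Kbar) =
    coeffMap iota ((u : FN N) : LaurentSeries Kbar)
  rw [coe_heckeAlphaBar]

theorem PsiMer_bUnits (u : (FN N)ˣ) :
    PsiMer (N * q) ((bcUnits (N * q) (DR.Hecke.bUnits N q u) : (FF ℂ (N * q))ˣ) : FF ℂ (N * q)) =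
      compGL (ModularForm.heckeDiagMatrix q) (ModularForm.det_heckeDiagMatrix_pos q)
        (PsiMer N ((bcUnits N u : (FF ℂ N)ˣ) : FF ℂ N)) := by
  rw [PsiMer_eq, PsiMer_eq, ← PsiQ_qExpand]
  refine congrArg PsiQ (Subtype.ext ?_)
  show coeffMap iota (qExpand Kbar q ((u : FN N) : LaurentSeries Kbar)) = _
  rw [coeffMap_qExpand]
  rfl

/-- the character of `α^* x` is the restriction of the character of `x`. -/
theorem ch_aPull (x : KV Kbar (FN N) m) (γ : Gamma0 (N * q)) (γ' : Gamma0 N)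
    (h : (γ : SL(2, ℤ)) = γ') : ch (N * q) m (DR.Hecke.aPull N q m x) γ = ch N m x γ' := by
  obtain ⟨u, rfl⟩ := KV.mk_surjective x
  rw [DR.Hecke.aPull_mk]
  obtain ⟨h₁, e₁, t₁⟩ := ch_spec N m u
  apply Subtype.ext
  apply Units.ext
  refine hasChar_apply_eq (ch_spec (N * q) m ⟨DR.Hecke.aUnits N q u, DR.Hecke.aUnits_mem m u.2⟩) h₁
    (by rw [e₁]; exact (PsiMer_aUnits N q _).symm) γ _ ?_
  rw [h]
  exact t₁ γ'

/-- the character of `β^* y` is the character of `y` composed with the conjugation by `diag(q,1)`. -/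
theorem ch_bPull (y : KV Kbar (FN N) m) (γ : Gamma0 (N * q)) (γ' : Gamma0 N)
    (h : ModularForm.heckeDiagMatrix q * mapGL ℝ (γ : SL(2, ℤ)) =
      mapGL ℝ (γ' : SL(2, ℤ)) * ModularForm.heckeDiagMatrix q) :
    ch (N * q) m (DR.Hecke.bPull N q m y) γ = ch N m y γ' := by
  obtain ⟨u, rfl⟩ := KV.mk_surjective y
  rw [DR.Hecke.bPull_mk]
  obtain ⟨h₁, e₁, t₁⟩ := ch_spec N m u
  apply Subtype.ext
  apply Units.ext
  have hg := ModularForm.det_heckeDiagMatrix_pos q
  refine hasChar_apply_eq (ch_spec (N * q) m ⟨DR.Hecke.bUnits N q u, DR.Hecke.bUnits_mem m u.2⟩)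
    (compGL (ModularForm.heckeDiagMatrix q) hg h₁)
    (by rw [← map_pow, e₁]; exact (PsiMer_bUnits N q _).symm) γ _ ?_
  have hpos1 : 0 < (ModularForm.heckeDiagMatrix q * mapGL ℝ (γ : SL(2, ℤ))).det.val := by
    rw [map_mul, Units.val_mul]
    exact mul_pos hg (det_mapGL_pos _)
  have hpos2 : 0 < (mapGL ℝ (γ' : SL(2, ℤ)) * ModularForm.heckeDiagMatrix q).det.val := by
    rw [map_mul, Units.val_mul]
    exact mul_pos (det_mapGL_pos _) hg
  have e1 : compSL (γ : SL(2, ℤ)) (compGL (ModularForm.heckeDiagMatrix q) hg h₁)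
      = compGL (ModularForm.heckeDiagMatrix q * mapGL ℝ (γ : SL(2, ℤ))) hpos1 h₁ :=
    compGL_compGL _ _ _ _ hpos1 h₁
  have e2 : compGL (ModularForm.heckeDiagMatrix q) hg (compSL (γ' : SL(2, ℤ)) h₁)
      = compGL (mapGL ℝ (γ' : SL(2, ℤ)) * ModularForm.heckeDiagMatrix q) hpos2 h₁ :=
    compGL_compGL _ _ _ _ hpos2 h₁
  rw [e1, compGL_congr h hpos1 hpos2, ← e2, t₁, map_mul, compGL_algebraMap]

/-! ### The Hecke operators -/

/-- the character of `T_ℓ x`. -/
theorem ch_heckeT_of {ℓ : ℕ} [NeZero ℓ] (hℓ : ℓ.Prime) (hℓN : ¬ ℓ ∣ N) (x : KV Kbar (FN N) m)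
    (χ' : Gamma0 N →* rootsOfUnity m ℂ)
    (hχ' : ∀ γ : Gamma0 N, ∃ D : HeckeDecomp N ℓ γ, χ' γ = ∏ y, ch N m x (D.γ' y)) :
    ch N m (heckeT Kbar N ℓ m x) = χ' := by
  obtain ⟨u, rfl⟩ := KV.mk_surjective x
  rw [heckeT_mk (heckeNormPreserves N ℓ m)]
  exact ch_eq_of_hasChar (HasChar.heckeK (hstar_Kbar N ℓ hℓ hℓN) (ch_spec N m u) hχ')

end Fermat.Agent.S41.IHB
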