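import Fermat.Agent.S41.IHB.Char

/-!
# S41 / IHB : a class whose character is trivial on `Γ₁(N)` is Eisenstein

If `χ_x` kills `Γ₁(N)` then `T_ℓ x = (ℓ + 1) x` for **every** prime `ℓ ∤ N`: in `α_i γ = γ_i α_{σ i}` the lower right
entry is multiplicative mod `N`, and the contributions of the `α_i` cancel because `σ` is a permutation.
-/

set_option autoImplicit false
set_option linter.unusedSectionVars false

noncomputable section

namespace Fermat.Agent.S41.IHB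

open AlgebraicCurve ModularCurve Fermat.Agent.S24 Fermat.Agent.GAL Fermat.Agent.GAL.Hecke
  Fermat.Agent.GAL.Tors
open CongruenceSubgroup Matrix.SpecialLinearGroup
open scoped MatrixGroups

open P2MW.S_ModularForm_heckeT_slash_eq_self_of_mem_Gamma0.ModularForm.HeckeSlashInvariance

variable {N : ℕ} [NeZero N]

/-- A character killing `Γ₁(N)` only depends on `d mod N`. -/
theorem eq_of_Gamma0Map_eq {A : Type*} [Group A] (χ : Gamma0 N →* A)
    (hχ : ∀ γ : Gamma0 N, (γ : SL(2, ℤ)) ∈ Gamma1 N → χ γ = 1) {γ γ' : Gamma0 N}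
    (h : Gamma0Map N γ = Gamma0Map N γ') : χ γ = χ γ' := by
  have h1 : Gamma0Map N (γ'⁻¹ * γ) = 1 := by
    rw [map_mul, h, ← map_mul, inv_mul_cancel, map_one]
  have h2 : γ'⁻¹ * γ ∈ Gamma1' N := Gamma1_mem'.mpr h1
  have h3 : ((γ'⁻¹ * γ : Gamma0 N) : SL(2, ℤ)) ∈ Gamma1 N := by
    rw [Gamma1_mem]
    exact (Gamma1_to_Gamma0_mem _).mp h2
  have h4 := hχ _ h3
  rw [map_mul, map_inv, inv_mul_eq_one] at h4
  exact h4.symm

/-- an element of `Γ₀(N)` with lower right entry `ℓ`. -/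
theorem exists_Gamma0Map_eq {ℓ : ℕ} (h : Nat.Coprime ℓ N) : ∃ lam : Gamma0 N, Gamma0Map N lam = (ℓ : ZMod N) := by
  have h1 : IsCoprime (ℓ : ℤ) (N : ℤ) := Nat.isCoprime_iff_coprime.mpr h
  obtain ⟨a, b, hab⟩ := h1
  let g : SL(2, ℤ) := ⟨!![a, -b; (N : ℤ), (ℓ : ℤ)], by rw [Matrix.det_fin_two_of]; linarith⟩
  have hg : g ∈ Gamma0 N := by
    rw [Gamma0_mem]
    show (((N : ℤ) : ℤ) : ZMod N) = 0
    simp
  refine ⟨⟨g, hg⟩, ?_⟩
  show (((ℓ : ℤ) : ℤ) : ZMod N) = _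
  simp

variable {ℓ : ℕ} [NeZero ℓ]

/-- lower right entry of `heckeRep`. -/
def repD (ℓ : ℕ) (x : OnePoint (ZMod ℓ)) : ℤ := x.elim 1 (fun _ => (ℓ : ℤ))

/-- upper right entry of `heckeRep`. -/
def repB (ℓ : ℕ) (x : OnePoint (ZMod ℓ)) : ℤ := x.elim 0 (fun j => (j.val : ℤ))

theorem heckeRep_10 (x : OnePoint (ZMod ℓ)) :
    ((heckeRep ℓ x : GL (Fin 2) ℝ) : Matrix (Fin 2) (Fin 2) ℝ) 1 0 = 0 := by
  induction x using OnePoint.rec with
  | infty => rw [heckeRep_infty, ModularForm.val_heckeDiagMatrix (NeZero.ne ℓ)]; simp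
  | coe j => rw [heckeRep_coe, ModularForm.val_heckeMatrix (NeZero.ne ℓ)]; simp

theorem heckeRep_11 (x : OnePoint (ZMod ℓ)) :
    ((heckeRep ℓ x : GL (Fin 2) ℝ) : Matrix (Fin 2) (Fin 2) ℝ) 1 1 = (repD ℓ x : ℝ) := by
  induction x using OnePoint.rec with
  | infty => rw [heckeRep_infty, ModularForm.val_heckeDiagMatrix (NeZero.ne ℓ)]; simp [repD]
  | coe j => rw [heckeRep_coe, ModularForm.val_heckeMatrix (NeZero.ne ℓ)]; simp [repD]

theorem heckeRep_01 (x : OnePoint (ZMod ℓ)) :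
    ((heckeRep ℓ x : GL (Fin 2) ℝ) : Matrix (Fin 2) (Fin 2) ℝ) 0 1 = (repB ℓ x : ℝ) := by
  induction x using OnePoint.rec with
  | infty => rw [heckeRep_infty, ModularForm.val_heckeDiagMatrix (NeZero.ne ℓ)]; simp [repB]
  | coe j => rw [heckeRep_coe, ModularForm.val_heckeMatrix (NeZero.ne ℓ)]; simp [repB]

/-- the lower right entry of `α_x γ = γ'_x α_{σ x}`. -/
theorem HeckeDecomp_entry {γ : Gamma0 N} (D : HeckeDecomp N ℓ γ) (x : OnePoint (ZMod ℓ)) :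
    repD ℓ x * (γ : SL(2, ℤ)) 1 1 =
      (D.γ' x : SL(2, ℤ)) 1 0 * repB ℓ (D.σ x) + (D.γ' x : SL(2, ℤ)) 1 1 * repD ℓ (D.σ x) := by
  have h := congrArg (fun g : GL (Fin 2) ℝ => (g : Matrix (Fin 2) (Fin 2) ℝ) 1 1) (D.rel x)
  simp only [Units.val_mul, Matrix.mul_apply, Fin.sum_univ_two, heckeRep_10, heckeRep_11,
    heckeRep_01, zero_mul, zero_add] at h
  have e : ∀ (g : SL(2, ℤ)) (i j : Fin 2),
      ((mapGL ℝ g : GL (Fin 2) ℝ) : Matrix (Fin 2) (Fin 2) ℝ) i j = ((g i j : ℤ) : ℝ) := by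
    intro g i j
    simp
  rw [e, e, e] at h
  exact_mod_cast h

theorem HeckeDecomp_entry_mod {γ : Gamma0 N} (D : HeckeDecomp N ℓ γ) (x : OnePoint (ZMod ℓ)) :
    (repD ℓ x : ZMod N) * Gamma0Map N γ = Gamma0Map N (D.γ' x) * (repD ℓ (D.σ x) : ZMod N) := by
  have h := congrArg (fun z : ℤ => (z : ZMod N)) (HeckeDecomp_entry D x)
  have h0 : ((((D.γ' x : Gamma0 N) : SL(2, ℤ)) 1 0 : ℤ) : ZMod N) = 0 := Gamma0_mem.mp (D.γ' x).2
  simp only [Int.cast_mul, Int.cast_add, h0, zero_mul, zero_add] at h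
  exact h

/-- **The transfer of a character killing `Γ₁(N)`.** -/
theorem prod_eq_pow {A : Type*} [CommGroup A] (χ : Gamma0 N →* A)
    (hχ : ∀ γ : Gamma0 N, (γ : SL(2, ℤ)) ∈ Gamma1 N → χ γ = 1) (hℓN : Nat.Coprime ℓ N)
    {γ : Gamma0 N} (D : HeckeDecomp N ℓ γ) : ∏ y, χ (D.γ' y) = χ γ ^ (ℓ + 1) := by
  obtain ⟨lam, hlam⟩ := exists_Gamma0Map_eq hℓN
  let e : OnePoint (ZMod ℓ) → Gamma0 N := fun x => x.elim 1 (fun _ => lam)
  have he : ∀ x, Gamma0Map N (e x) = (repD ℓ x : ZMod N) := by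
    intro x
    induction x using OnePoint.rec with
    | infty => simp [e, repD]
    | coe j => simp [e, repD, hlam]
  have h1 : ∀ x, χ (e x) * χ γ = χ (D.γ' x) * χ (e (D.σ x)) := by
    intro x
    rw [← map_mul, ← map_mul]
    apply eq_of_Gamma0Map_eq χ hχ
    rw [map_mul, map_mul, he, he]
    exact HeckeDecomp_entry_mod D x
  have h2 : ∏ x, (χ (e x) * χ γ) = ∏ x, (χ (D.γ' x) * χ (e (D.σ x))) :=
    Finset.prod_congr rfl fun x _ => h1 x
  rw [Finset.prod_mul_distrib, Finset.prod_mul_distrib,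
    Equiv.prod_comp D.σ (fun x => χ (e x)), Finset.prod_const, mul_comm] at h2
  have h3 := mul_right_cancel h2
  rw [← h3, Finset.card_univ]
  congr 1
  show Fintype.card (Option (ZMod ℓ)) = ℓ + 1
  rw [Fintype.card_option, ZMod.card]

variable (N) in
/-- **A class whose character kills `Γ₁(N)` is Eisenstein.** -/
theorem heckeT_eq_of_trivial {m : ℕ} [NeZero m] (hℓ : ℓ.Prime) (hℓN : ¬ ℓ ∣ N) (x : KV Kbar (FN N) m)
    (hx : ∀ γ : Gamma0 N, (γ : SL(2, ℤ)) ∈ Gamma1 N → ch N m x γ = 1) :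
    heckeT Kbar N ℓ m x = (ℓ + 1) • x := by
  apply ch_injective
  rw [ch_nsmul]
  apply ch_heckeT_of N hℓ hℓN
  intro γ
  obtain ⟨D⟩ := nonempty_heckeDecomp N hℓ hℓN γ
  refine ⟨D, ?_⟩
  rw [prod_eq_pow _ hx ((Nat.Prime.coprime_iff_not_dvd hℓ).mpr hℓN) D]
  rfl

end Fermat.Agent.S41.IHB
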